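-- Statement S22: the Hecke algebra of cusp forms is a finitely generated ℤ-module.
-- Proof: injective half of the Eichler-Shimura isomorphism (period cocycles with values in
-- homogeneous polynomials), see Fermat/Agent/S22/*.lean.
import Fermat.Statements.S22
import Fermat.Agent.S22.Final
import Fermat.Agent.S22.Small

set_option autoImplicit false
open CuspForm

namespace Fermat.Agent.S22

theorem result (N : ℕ) [NeZero N] (k : ℤ) (S : Set ℕ) :
    Module.Finite ℤ (CuspForm.heckeAlgebra N k S) := by
  by_cases hk : 2 ≤ k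
  · obtain ⟨n, rfl⟩ : ∃ n : ℕ, k = (n : ℤ) + 2 := ⟨(k - 2).toNat, by omega⟩
    exact Fermat.Agent.S22Aux.finite_heckeAlgebra_add_two N n S
  · have hsub : Subsingleton (CuspForm (CongruenceSubgroup.Gamma0 N) k) := by
      refine ⟨fun f g => ?_⟩
      rcases (show k ≤ 0 ∨ k = 1 by omega) with h | rfl
      · rw [Fermat.Agent.S22Aux.cuspForm_eq_zero_of_nonpos N h f,
          Fermat.Agent.S22Aux.cuspForm_eq_zero_of_nonpos N h g]
      · rw [Fermat.Agent.S22Aux.cuspForm_eq_zero_of_weight_one N f,
          Fermat.Agent.S22Aux.cuspForm_eq_zero_of_weight_one N g]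
    have hsub2 : Subsingleton (Module.End ℂ (CuspForm (CongruenceSubgroup.Gamma0 N) k)) :=
      ⟨fun a b => LinearMap.ext fun x => Subsingleton.elim _ _⟩
    have hsub3 : Subsingleton (CuspForm.heckeAlgebra N k S) :=
      ⟨fun a b => Subtype.ext (Subsingleton.elim _ _)⟩
    infer_instance

end Fermat.Agent.S22
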