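-- Statement S21 (row 20): Eichler-Shimura for weight 2 and level Gamma0(N).
-- Proof: period side in Fermat/Agent/S21/*, existence of enough forms (free basis of the graded
-- module of modular forms over C[E4,E6]) in Fermat/Agent/S20/*.
import Fermat.Statements.S21
import Fermat.Agent.S21.Assembly
import Fermat.Agent.S21.Prim
import Fermat.Agent.S21.Chain
import Fermat.Agent.S21.EquivPrim
import Fermat.Agent.S21.PeriodLinear
import Fermat.Agent.S21.Parabolic
import Fermat.Agent.S21.MaxPrinciple16
import Fermat.Agent.S21.Injective
import Fermat.Agent.S21.PeriodMF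
import Fermat.Agent.S21.HomBound
import Fermat.Agent.S20.CoreS21
import Fermat.Agent.S20.LevelOne
import Fermat.Agent.S20.Div
import Fermat.Agent.S20.FreeBasis
import Fermat.Agent.S20.PermDiag
import Fermat.Agent.S20.TwistedLimit
import Fermat.Agent.S20.LeadingTerm
import Fermat.Agent.S20.CuspInverse
import Fermat.Agent.S20.Rinf
import Fermat.Agent.S20.CardLe
import Fermat.Agent.S20.DualTendsto
import Fermat.Agent.S20.Exist
import Fermat.Agent.S20.Sep
import Fermat.Agent.S20.Rank
import Fermat.Agent.S20.Serre
import Fermat.Agent.S20.NonVanishing
import Fermat.Agent.S20.DualA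
import Fermat.Agent.S20.DualBC
import Fermat.Agent.S20.Elliptic

set_option autoImplicit false
open ModularCurve

namespace Fermat.Agent.S21

open Fermat.Agent.S20 in
theorem core_families : Stmt_exists_weight_two_families := by
  have hRinf : Stmt_Rinf := rinf levelOne_monomial div_discriminant
  have hEven : Stmt_freeBasis_even := freeBasis_even odd_weight
  have hStr : Stmt_structure :=
    structure_thm (exists_freeBasis levelOne_gen (coprime tendsto_E4)) hEven
      (card_le hRinf (leadingTerm permDiag twistedLimit)) exists_form_stabilizer
      exists_injective_tr rank (nonvanishing' serre levelOne_weight_two)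
      (dual_tendsto hRinf (cuspInverse permDiag twistedLimit))
  exact exists_weight_two_families hStr hEven freeBasis_weight_zero dual_isCF
    (dual_weight_lt dual_isCF cusp_nonpos) card_fixedBy

theorem result (N : ℕ) [NeZero N] :
    Function.Injective (ModularCurve.periodHomPair N)
      ∧ LinearMap.range (ModularCurve.periodHomPair N)
          = ModularCurve.Period.parabolicHoms ℂ (CongruenceSubgroup.Gamma0 N) ℂ := by
  have h1 := exists_primitive_of_periodic
  have h2a := const_of_hasDerivAt_zero
  have h2b := hasDerivAt_comp_smul
  have h3 := exists_hasEquivariantPrimitive h1 h2a h2b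
  have h4 := periodMap_apply h2a
  have h4b := existsPeriodMapLinear h2a h3
  have h5 := periodMap_mem_parabolicHoms h3 h4
  have h7 := injectivity_core h3 h4 h5 MaxP16.maxPrinciple
  have h8 := exists_periodMF h1 h2a h2b h3 h4
  exact assembly h4b h5 h7 h8 finrank_hom_bound core_families N

end Fermat.Agent.S21
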