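import Fermat.Statements.S05
import Fermat.Agent.S05.Frey

set_option autoImplicit false
open WeierstrassCurve WeierstrassCurve.Affine WeierstrassCurve.Affine.Point
open CuspForm ModularFormClass UpperHalfPlane
open FreyPackage

namespace Fermat.Agent.S05

theorem result (P : FreyPackage) {q : ℕ} (hq : q.Prime) (hq2 : q ≠ 2) (hqp : q ≠ P.p) : P.GaloisRepUnramifiedAt q := by
  intro A hA σ hσ x
  have hqZ : Prime (q : ℤ) := Nat.prime_iff_prime_int.1 hq
  have hFLT : (P.a : ℚ) ^ P.p + (P.b : ℚ) ^ P.p = (P.c : ℚ) ^ P.p := by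
    exact_mod_cast congrArg (Int.cast : ℤ → ℚ) P.hFLT
  by_cases hc : (q : ℤ) ∣ P.c
  · -- multiplicative reduction, node at the 2-torsion point `x = a ^ p / 4`
    have hb : ¬ (q : ℤ) ∣ P.b := by
      intro hb
      have := dvd_gcd hb hc
      rw [P.hgcdbc] at this
      exact hqZ.not_isUnit (isUnit_of_dvd_one this)
    apply frey_fixed_of_model P ((2 * P.a ^ P.p + P.b ^ P.p : ℤ) : ℚ)
      (((P.a * P.c) ^ P.p : ℤ) : ℚ) ((-(P.a ^ P.p) : ℤ) : ℚ) ?_ ?_ ?_ σ
    · intro R hR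
      refine model_fixed hA hq hq2 P.pp hqp _ (P.a * P.c) (mul_ne_zero P.ha0 P.hc0) ?_ hσ R hR
      have e : (2 * P.a ^ P.p + P.b ^ P.p) ^ 2 - 4 * (P.a * P.c) ^ P.p = (P.b ^ P.p) ^ 2 := by
        rw [mul_pow, ← P.hFLT]; ring
      rw [e]
      intro h
      exact hb (hqZ.dvd_of_dvd_pow (hqZ.dvd_of_dvd_pow h))
    · simp only [FreyPackage.freyCurve]
      push_cast
      ring
    · simp only [FreyPackage.freyCurve]
      push_cast
      rw [mul_pow, ← hFLT]
      ring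
    · push_cast
      rw [mul_pow, ← hFLT]
      ring
  · apply frey_fixed_of_model P ((P.b ^ P.p - P.a ^ P.p : ℤ) : ℚ)
      (((-(P.a * P.b)) ^ P.p : ℤ) : ℚ) 0 ?_ ?_ ?_ σ
    · intro R hR
      refine model_fixed hA hq hq2 P.pp hqp _ (-(P.a * P.b))
        (neg_ne_zero.2 (mul_ne_zero P.ha0 P.hb0)) ?_ hσ R hR
      have e : (P.b ^ P.p - P.a ^ P.p) ^ 2 - 4 * (-(P.a * P.b)) ^ P.p = (P.c ^ P.p) ^ 2 := by
        rw [P.hp_odd.neg_pow, mul_pow, ← P.hFLT]; ring
      rw [e]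
      intro h
      exact hc (hqZ.dvd_of_dvd_pow (hqZ.dvd_of_dvd_pow h))
    · simp only [FreyPackage.freyCurve]
      push_cast
      ring
    · simp only [FreyPackage.freyCurve]
      push_cast
      rw [P.hp_odd.neg_pow, mul_pow]
      ring
    · ring

end Fermat.Agent.S05
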