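import Fermat.Statements.S02

set_option autoImplicit false
open FreyPackage

namespace Fermat.Agent.S02

/-- Final step: `a` odd, `b` even, coprime. -/
theorem of_odd_even {a b c : ℤ} (ha : a ≠ 0) (hb : b ≠ 0) (hc : c ≠ 0) {p : ℕ} (pp : p.Prime)
    (hp5 : 5 ≤ p) (H : a ^ p + b ^ p = c ^ p) (hgcd : gcd a b = 1)
    (hao : a % 2 = 1) (hbe : b % 2 = 0) : Nonempty FreyPackage := by
  have hodd : Odd p := pp.odd_of_ne_two (by omega)
  have h4 : a % 4 = 1 ∨ a % 4 = 3 := by omega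
  rcases h4 with h4 | h4
  · refine ⟨{ a := -a, b := -b, c := -c, ha0 := neg_ne_zero.2 ha, hb0 := neg_ne_zero.2 hb,
              hc0 := neg_ne_zero.2 hc, p := p, pp := pp, hp5 := hp5, hFLT := ?_, hgcdab := ?_,
              ha4 := ?_, hb2 := ?_ }⟩
    · rw [hodd.neg_pow, hodd.neg_pow, hodd.neg_pow, ← H]; ring
    · rw [gcd_neg, neg_gcd]; exact hgcd
    · have : ((-a : ℤ) : ZMod 4) = ((3 : ℤ) : ZMod 4) := by
        rw [ZMod.intCast_eq_intCast_iff_dvd_sub]
        push_cast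
        omega
      rw [this]; rfl
    · rw [ZMod.intCast_zmod_eq_zero_iff_dvd]
      push_cast
      omega
  · refine ⟨{ a := a, b := b, c := c, ha0 := ha, hb0 := hb,
              hc0 := hc, p := p, pp := pp, hp5 := hp5, hFLT := H, hgcdab := hgcd,
              ha4 := ?_, hb2 := ?_ }⟩
    · have : ((a : ℤ) : ZMod 4) = ((3 : ℤ) : ZMod 4) := by
        rw [ZMod.intCast_eq_intCast_iff_dvd_sub]
        push_cast
        omega
      rw [this]; rfl
    · rw [ZMod.intCast_zmod_eq_zero_iff_dvd]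
      push_cast
      omega

/-- Coprime case. -/
theorem of_coprime {a b c : ℤ} (ha : a ≠ 0) (hb : b ≠ 0) (hc : c ≠ 0) {p : ℕ} (pp : p.Prime)
    (hp5 : 5 ≤ p) (H : a ^ p + b ^ p = c ^ p) (hgcd : gcd a b = 1) : Nonempty FreyPackage := by
  have hodd : Odd p := pp.odd_of_ne_two (by omega)
  have hp0 : 0 < p := by omega
  rcases Int.emod_two_eq_zero_or_one a with ha2 | ha2
  · rcases Int.emod_two_eq_zero_or_one b with hb2 | hb2
    · exfalso
      have h1 : (2 : ℤ) ∣ gcd a b :=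
        dvd_gcd (Int.dvd_of_emod_eq_zero ha2) (Int.dvd_of_emod_eq_zero hb2)
      rw [hgcd] at h1
      omega
    · exact of_odd_even hb ha hc pp hp5 (by rw [add_comm]; exact H)
        (by rw [gcd_comm]; exact hgcd) hb2 ha2
  · rcases Int.emod_two_eq_zero_or_one b with hb2 | hb2
    · exact of_odd_even ha hb hc pp hp5 H hgcd ha2 hb2
    · -- both odd, so `c` is even
      have hc2 : c % 2 = 0 := by
        have hao : Odd a := Int.odd_iff.2 ha2
        have hbo : Odd b := Int.odd_iff.2 hb2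
        have hce : Even (c ^ p) := by rw [← H]; exact (hao.pow).add_odd (hbo.pow)
        have : Even c := (Int.even_pow.1 hce).1
        exact Int.even_iff.1 this
      have hgac : gcd a c = 1 := by rw [← gcdab_eq_gcdac hp0 H]; exact hgcd
      refine of_odd_even (a := a) (b := -c) (c := -b) ha (neg_ne_zero.2 hc) (neg_ne_zero.2 hb)
        pp hp5 ?_ ?_ ha2 (by omega)
      · rw [hodd.neg_pow, hodd.neg_pow, ← H]; ring
      · rw [gcd_neg]; exact hgac

theorem result (a b c : ℤ) (ha : a ≠ 0) (hb : b ≠ 0) (hc : c ≠ 0) (p : ℕ) (pp : p.Prime) (hp5 : 5 ≤ p) (H : a ^ p + b ^ p = c ^ p) : Nonempty FreyPackage := by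
  have hp0 : p ≠ 0 := by omega
  set d : ℤ := gcd a b with hd
  have hd0 : d ≠ 0 := by
    intro h
    rw [hd, gcd_eq_zero_iff] at h
    exact ha h.1
  obtain ⟨a', ha'⟩ : d ∣ a := gcd_dvd_left a b
  obtain ⟨b', hb'⟩ : d ∣ b := gcd_dvd_right a b
  have hdc : d ∣ c := by
    rw [← Int.pow_dvd_pow_iff hp0, ← H]
    exact dvd_add (pow_dvd_pow_of_dvd ⟨a', ha'⟩ p) (pow_dvd_pow_of_dvd ⟨b', hb'⟩ p)
  obtain ⟨c', hc'⟩ := hdc
  have ha'0 : a' ≠ 0 := by rintro rfl; exact ha (by rw [ha', mul_zero])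
  have hb'0 : b' ≠ 0 := by rintro rfl; exact hb (by rw [hb', mul_zero])
  have hc'0 : c' ≠ 0 := by rintro rfl; exact hc (by rw [hc', mul_zero])
  have H' : a' ^ p + b' ^ p = c' ^ p := by
    have h1 : d ^ p * (a' ^ p + b' ^ p) = d ^ p * c' ^ p := by
      rw [mul_add, ← mul_pow, ← mul_pow, ← mul_pow, ← ha', ← hb', ← hc']; exact H
    exact mul_left_cancel₀ (pow_ne_zero p hd0) h1
  have hg : gcd a' b' = 1 := by
    have h1 : d = normalize d * gcd a' b' := by
      conv_lhs => rw [hd, ha', hb', gcd_mul_left]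
    have h2 : normalize d = d := by rw [hd]; exact normalize_gcd a b
    rw [h2] at h1
    have h3 : d * 1 = d * gcd a' b' := by rw [mul_one]; exact h1
    exact (mul_left_cancel₀ hd0 h3).symm
  exact of_coprime ha'0 hb'0 hc'0 pp hp5 H' hg

end Fermat.Agent.S02
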