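-- Statement S07: every weight-2 cusp form of level Γ₀(2) is zero (via the prelude Sturm bound).
import Fermat.Statements.S07
import Fermat.Prelude.Thm_ModularForm_sturm_bound_Gamma0
import Fermat.Prelude.Thm_CongruenceSubgroup_one_mem_strictPeriods_Gamma0

set_option autoImplicit false
open WeierstrassCurve WeierstrassCurve.Affine WeierstrassCurve.Affine.Point
open CuspForm ModularFormClass UpperHalfPlane
open ModularForm

namespace Fermat.Agent.S07

open scoped MatrixGroups

/-- The first column mod 2 of a matrix in `SL(2, ℤ)`. -/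
def colModTwo (g : SL(2, ℤ)) : ZMod 2 × ZMod 2 :=
  (((g 0 0 : ℤ) : ZMod 2), ((g 1 0 : ℤ) : ZMod 2))

theorem colModTwo_eq_iff (a b : SL(2, ℤ)) :
    colModTwo a = colModTwo b ↔ a⁻¹ * b ∈ CongruenceSubgroup.Gamma0 2 := by
  rw [CongruenceSubgroup.Gamma0_mem]
  have hdet := a.det_coe
  have hdetb := b.det_coe
  rw [Matrix.det_fin_two] at hdet hdetb
  have hentry : ((a⁻¹ * b : SL(2, ℤ)) 1 0 : ℤ) = - a 1 0 * b 0 0 + a 0 0 * b 1 0 := by
    rw [Matrix.SpecialLinearGroup.coe_mul, Matrix.SpecialLinearGroup.SL2_inv_expl,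
      Matrix.mul_apply, Fin.sum_univ_two]
    simp
  rw [hentry]
  have hdet2 : ((a 0 0 : ℤ) : ZMod 2) * ((a 1 1 : ℤ) : ZMod 2)
      - ((a 0 1 : ℤ) : ZMod 2) * ((a 1 0 : ℤ) : ZMod 2) = 1 := by
    exact_mod_cast congrArg (Int.cast : ℤ → ZMod 2) hdet
  have hdetb2 : ((b 0 0 : ℤ) : ZMod 2) * ((b 1 1 : ℤ) : ZMod 2)
      - ((b 0 1 : ℤ) : ZMod 2) * ((b 1 0 : ℤ) : ZMod 2) = 1 := by
    exact_mod_cast congrArg (Int.cast : ℤ → ZMod 2) hdetb
  simp only [colModTwo, Prod.mk.injEq]
  push_cast
  generalize ((a 0 0 : ℤ) : ZMod 2) = a00 at *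
  generalize ((a 0 1 : ℤ) : ZMod 2) = a01 at *
  generalize ((a 1 0 : ℤ) : ZMod 2) = a10 at *
  generalize ((a 1 1 : ℤ) : ZMod 2) = a11 at *
  generalize ((b 0 0 : ℤ) : ZMod 2) = b00 at *
  generalize ((b 0 1 : ℤ) : ZMod 2) = b01 at *
  generalize ((b 1 0 : ℤ) : ZMod 2) = b10 at *
  generalize ((b 1 1 : ℤ) : ZMod 2) = b11 at *
  clear hentry hdet hdetb
  revert a00 a01 a10 a11 b00 b01 b10 b11
  decide

theorem index_Gamma0_two_le : (CongruenceSubgroup.Gamma0 2).index ≤ 4 := by
  classical
  have hinj : Function.Injective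
      (Quotient.lift (s := QuotientGroup.leftRel (CongruenceSubgroup.Gamma0 2)) colModTwo
        (by
          intro a b hab
          exact (colModTwo_eq_iff a b).2 (QuotientGroup.leftRel_apply.1 hab))) := by
    intro x y
    induction x using Quotient.inductionOn with
    | h a =>
      induction y using Quotient.inductionOn with
      | h b =>
        intro h
        exact Quotient.sound (QuotientGroup.leftRel_apply.2 ((colModTwo_eq_iff a b).1 h))
  have := Nat.card_le_card_of_injective _ hinj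
  have h4 : Nat.card (ZMod 2 × ZMod 2) = 4 := by
    simp
  rw [h4] at this
  exact this

theorem result (f : CuspForm (CongruenceSubgroup.Gamma0 2) 2) : f = 0 := by
  have hidx := index_Gamma0_two_le
  let F : ModularForm (CongruenceSubgroup.Gamma0 2) 2 :=
    { toSlashInvariantForm := f.toSlashInvariantForm
      holo' := f.holo'
      bdd_at_cusps' := fun hc γ hγ => (f.zero_at_cusps' hc γ hγ).isBoundedAtImInfty }
  have hF : F = 0 := by
    apply ModularForm.sturm_bound_Gamma0 2 F
    intro n hn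
    have h0 : ((2 : ℤ) * ((CongruenceSubgroup.Gamma0 2).index : ℤ)).toNat / 12 = 0 := by
      apply Nat.div_eq_of_lt
      omega
    rw [h0] at hn
    obtain rfl : n = 0 := by omega
    exact CuspFormClass.qExpansion_coeff_zero f one_pos
      (CongruenceSubgroup.one_mem_strictPeriods_Gamma0 2)
  ext z
  have := congrArg (fun G : ModularForm (CongruenceSubgroup.Gamma0 2) 2 => G z) hF
  exact this

end Fermat.Agent.S07
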