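import Fermat.Statements.S08
import Fermat.Prelude.Thm_ModularForm_sturm_bound_Gamma0
import Fermat.Prelude.Thm_CongruenceSubgroup_one_mem_strictPeriods_Gamma0

set_option autoImplicit false
open WeierstrassCurve WeierstrassCurve.Affine WeierstrassCurve.Affine.Point
open CuspForm ModularFormClass UpperHalfPlane
open ModularForm

namespace Fermat.Agent.S08

theorem gamma0_one_index : (CongruenceSubgroup.Gamma0 1).index = 1 := by
  rw [Subgroup.index_eq_one, eq_top_iff]
  intro g _
  rw [CongruenceSubgroup.Gamma0_mem]
  exact Subsingleton.elim _ _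

theorem result (f : CuspForm (CongruenceSubgroup.Gamma0 1) 2) : f = 0 := by
  have hmf : (ModularFormClass.modularForm f : ModularForm (CongruenceSubgroup.Gamma0 1) 2) = 0 := by
    refine ModularForm.sturm_bound_Gamma0 1 _ fun n hn ↦ ?_
    rw [gamma0_one_index] at hn
    have hn0 : n = 0 := by
      have : ((2 : ℤ) * ((1 : ℕ) : ℤ)).toNat / 12 = 0 := by norm_num
      omega
    subst hn0
    exact CuspFormClass.qExpansion_coeff_zero f one_pos
      (CongruenceSubgroup.one_mem_strictPeriods_Gamma0 1)
  have hcoe : (⇑f : ℍ → ℂ) = 0 := by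
    have := congrArg (fun F : ModularForm (CongruenceSubgroup.Gamma0 1) 2 ↦ (⇑F : ℍ → ℂ)) hmf
    simpa using this
  exact DFunLike.coe_injective (hcoe.trans CuspForm.coe_zero.symm)

end Fermat.Agent.S08
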