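-- Statement S10: no Galois-stable cofixed line for the Frey curve when p ∈ {5, 7, 13}.
-- Proof: a Frey package with such a `p` contradicts Fermat's Last Theorem for the regular
-- primes 5, 7, 13 (Kummer), proved in `Fermat/Agent/Kummer`.
import Fermat.Statements.S10
import Fermat.Agent.Kummer.SophieGermain
import Fermat.Agent.Kummer.Concrete
import Fermat.Agent.Kummer.KummerLemma
import Fermat.Agent.Kummer.PID7
import Fermat.Agent.Kummer.PID13

set_option autoImplicit false
open WeierstrassCurve WeierstrassCurve.Affine WeierstrassCurve.Affine.Point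
open CuspForm ModularFormClass UpperHalfPlane
open FreyPackage

namespace Fermat.Agent.S10

open Fermat.Agent.Kummer

/-- Case I without the coprimality assumption, from case I for coprime integers. -/
lemma caseI_general {p : ℕ} (hp : p ≠ 0)
    (h : ∀ a b c : ℤ, IsCoprime a b → ¬ (p : ℤ) ∣ a * b * c → a ^ p + b ^ p ≠ c ^ p) :
    ∀ a b c : ℤ, ¬ (p : ℤ) ∣ a * b * c → a ^ p + b ^ p ≠ c ^ p := by
  intro a b c hnd H
  have ha : a ≠ 0 := by
    rintro rfl
    exact hnd (by simp)
  have hd : 0 < Int.gcd a b := Int.gcd_pos_of_ne_zero_left b ha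
  obtain ⟨a', b', hcop, ha', hb'⟩ := Int.exists_gcd_one hd
  set d : ℤ := (Int.gcd a b : ℤ) with hd'
  have hd0 : d ≠ 0 := by positivity
  have hdc : d ∣ c := by
    rw [← Int.pow_dvd_pow_iff hp, ← H, ha', hb']
    exact ⟨a' ^ p + b' ^ p, by ring⟩
  obtain ⟨c', hc'⟩ := hdc
  refine h a' b' c' (Int.isCoprime_iff_gcd_eq_one.mpr hcop) ?_ ?_
  · intro hdvd
    apply hnd
    rw [ha', hb', hc']
    exact hdvd.trans ⟨d ^ 3, by ring⟩
  · have h1 : d ^ p * (a' ^ p + b' ^ p) = d ^ p * c' ^ p := by
      rw [ha', hb', hc'] at H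
      linear_combination H
    exact mul_left_cancel₀ (pow_ne_zero p hd0) h1

lemma isCoprime_ab (P : FreyPackage) : IsCoprime P.a P.b := by
  rw [Int.isCoprime_iff_gcd_eq_one]
  have h := P.hgcdab
  rw [← Int.coe_gcd] at h
  exact_mod_cast h

theorem flt_five {a b c : ℤ} (ha : a ≠ 0) (hb : b ≠ 0) (hc : c ≠ 0) (hab : IsCoprime a b)
    (H : a ^ 5 + b ^ 5 = c ^ 5) : False := by
  have : Fact (Nat.Prime 5) := ⟨by norm_num⟩
  have : IsCyclotomicExtension {5} ℚ (CyclotomicField 5 ℚ) :=
    CyclotomicField.isCyclotomicExtension 5 ℚ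
  have : IsPrincipalIdealRing (NumberField.RingOfIntegers (CyclotomicField 5 ℚ)) :=
    IsCyclotomicExtension.Rat.five_pid (CyclotomicField 5 ℚ)
  have hI := caseI_general (p := 5) (by norm_num) (fun a b c hab h => caseI_five hab h)
  exact flt_of_pid_of_kummerLemma (p := 5) (by norm_num) (CyclotomicField 5 ℚ)
    (fun u hu => kummer_lemma_five u hu) (by first | exact hI | exact fun a b c _ h => hI a b c h)
    ha hb hc hab H

theorem flt_seven {a b c : ℤ} (ha : a ≠ 0) (hb : b ≠ 0) (hc : c ≠ 0) (hab : IsCoprime a b)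
    (H : a ^ 7 + b ^ 7 = c ^ 7) : False := by
  have : Fact (Nat.Prime 7) := ⟨by norm_num⟩
  have : IsCyclotomicExtension {7} ℚ (CyclotomicField 7 ℚ) :=
    CyclotomicField.isCyclotomicExtension 7 ℚ
  have : IsPrincipalIdealRing (NumberField.RingOfIntegers (CyclotomicField 7 ℚ)) :=
    seven_pid (CyclotomicField 7 ℚ)
  have hI := caseI_general (p := 7) (by norm_num) (fun a b c hab h => caseI_seven hab h)
  exact flt_of_pid_of_kummerLemma (p := 7) (by norm_num) (CyclotomicField 7 ℚ)
    (fun u hu => kummer_lemma_seven u hu) (by first | exact hI | exact fun a b c _ h => hI a b c h)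
    ha hb hc hab H

theorem flt_thirteen {a b c : ℤ} (ha : a ≠ 0) (hb : b ≠ 0) (hc : c ≠ 0) (hab : IsCoprime a b)
    (H : a ^ 13 + b ^ 13 = c ^ 13) : False := by
  have : Fact (Nat.Prime 13) := ⟨by norm_num⟩
  have : IsCyclotomicExtension {13} ℚ (CyclotomicField 13 ℚ) :=
    CyclotomicField.isCyclotomicExtension 13 ℚ
  have : IsPrincipalIdealRing (NumberField.RingOfIntegers (CyclotomicField 13 ℚ)) :=
    thirteen_pid (CyclotomicField 13 ℚ)
  have hI := caseI_general (p := 13) (by norm_num) (fun a b c hab h => caseI_thirteen hab h)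
  exact flt_of_pid_of_kummerLemma (p := 13) (by norm_num) (CyclotomicField 13 ℚ)
    (fun u hu => kummer_lemma_thirteen u hu) (by first | exact hI | exact fun a b c _ h => hI a b c h)
    ha hb hc hab H

theorem result (P : FreyPackage) (hp : P.p = 5 ∨ P.p = 7 ∨ P.p = 13) : ¬ HasGaloisStableCofixedLine (K := AlgebraicClosure ℚ) ℚ P.freyCurve P.p := by
  exfalso
  have H := P.hFLT
  rcases hp with h | h | h
  · rw [h] at H
    exact flt_five P.ha0 P.hb0 P.hc0 (isCoprime_ab P) H
  · rw [h] at H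
    exact flt_seven P.ha0 P.hb0 P.hc0 (isCoprime_ab P) H
  · rw [h] at H
    exact flt_thirteen P.ha0 P.hb0 P.hc0 (isCoprime_ab P) H

end Fermat.Agent.S10
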