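import Fermat.Statements.S11
import Fermat.Agent.Kummer.Concrete
import Fermat.Agent.Kummer.KummerLemma
import Fermat.Agent.Kummer.SophieGermain
import Fermat.Agent.Kummer.PID11

set_option autoImplicit false
open WeierstrassCurve WeierstrassCurve.Affine WeierstrassCurve.Affine.Point
open CuspForm ModularFormClass UpperHalfPlane
open FreyPackage

namespace Fermat.Agent.S11

set_option backward.isDefEq.respectTransparency false in
/-- Fermat's Last Theorem for exponent `11` (coprime integers), by Kummer's method. -/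
theorem flt_eleven {a b c : ℤ} (ha : a ≠ 0) (hb : b ≠ 0) (hc : c ≠ 0) (hab : IsCoprime a b)
    (H : a ^ 11 + b ^ 11 = c ^ 11) : False := by
  have : Fact (Nat.Prime 11) := ⟨by norm_num⟩
  have : NeZero ((11 : ℕ) : ℚ) := ⟨by norm_num⟩
  have : NumberField (CyclotomicField 11 ℚ) := IsCyclotomicExtension.numberField {11} ℚ _
  have := Fermat.Agent.Kummer.eleven_pid (CyclotomicField 11 ℚ)
  exact Fermat.Agent.Kummer.flt_of_pid_of_kummerLemma (p := 11) (by norm_num)
    (CyclotomicField 11 ℚ) (fun u hu => Fermat.Agent.Kummer.kummer_lemma_eleven u hu)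
    (fun a b c hab h => Fermat.Agent.Kummer.caseI_eleven hab h) ha hb hc hab H

theorem result (P : FreyPackage) (hp : P.p = 11) : ¬ HasGaloisStableCofixedLine (K := AlgebraicClosure ℚ) ℚ P.freyCurve P.p := by
  exfalso
  have hab : IsCoprime P.a P.b :=
    (gcd_isUnit_iff _ _).mp (by rw [P.hgcdab]; exact isUnit_one)
  have H := P.hFLT
  rw [hp] at H
  exact flt_eleven P.ha0 P.hb0 P.hc0 hab H

end Fermat.Agent.S11
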