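-- Statement S14: ExtVanishingCts p for every prime p ≥ 3.
-- Team S14 (architect helper14).  Route: non-split admissible V gives an everywhere unramified
-- cyclic degree p extension L of K = ℚ(ζ_p), Galois over ℚ, with Gal(K/ℚ) acting on Gal(L/K) by χ⁻¹
-- (package DI); such an L does not exist (Theorem NF): norm index inequalities (Lo, U'),
-- crossing with cyclotomic fields (CR) and Stickelberger for Jacobi sums (ST).
import Fermat.Statements.S14
import Fermat.Agent.S14.Interface2
import Fermat.Agent.S14.DI
import Fermat.Agent.S14.NF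
import Fermat.Agent.S14.Lo
import Fermat.Agent.S14.Herbrand
import Fermat.Agent.S14.CR2
import Fermat.Agent.S14.CRcore
import Fermat.Agent.S14.Cross
import Fermat.Agent.S14.CrossGal
import Fermat.Agent.S14.CrossLemmas
import Fermat.Agent.S14.NormPow
import Fermat.Agent.S14.TotRam
import Fermat.Agent.S14.AuxPrime
import Fermat.Agent.S14.GL3
import Fermat.Agent.S14.UIneq
import Fermat.Agent.S14.ZetaCDiff
import Fermat.Agent.S14.Unfold
import Fermat.Agent.S14.Shift
import Fermat.Agent.S14.GsBound
import Fermat.Agent.S14.ZetaPole
import Fermat.Agent.S14.EulerIdeal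
import Fermat.Agent.S14.Stickelberger
import Fermat.Agent.S14.InertExists
import Fermat.Agent.S14.InertDegOne
import Fermat.Agent.S14.FrobAPI
import Fermat.Agent.S14.ClassAPI
import Fermat.Agent.S14.Moving

set_option autoImplicit false
open ExtCitation

namespace Fermat.Agent.S14

theorem stmt_U_final : Stmt_U :=
  u_ineq zetaPole eulerIdeal (zetaCDiff zetaPole (unfold zetaPole) (shift gsBound))

theorem stmt_GL3_final : Stmt_GL3 := GL3 zetaPole eulerIdeal

theorem stmt_Cross_final : Stmt_Cross :=
  cross totRam crossGal (splitOfFrobFix degOne) (absNormPow frobExists primeAbove) normPow cycSplit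
    frobExists primeAbove

theorem stmt_CR2_final : Stmt_CR2 :=
  cr2 (auxPrime_of_GL3 stmt_GL3_final) stmt_Cross_final
    (crcore stmt_U_final classHom moving clNorm clsBasic degOne) inertDegOne clsBasic

theorem stmt_NF_final : Stmt_NF :=
  nf (lo herbrand) stmt_CR2_final stickelberger (inertExists stmt_GL3_final degOne) frobExists
    primeAbove degOne frobConj clsBasic

theorem result {p : ℕ} [Fact p.Prime] (h3 : 3 ≤ p) :
    ExtCitation.ExtVanishingCts p :=
  S14_of_stmts stmt_DI stmt_NF_final h3

end Fermat.Agent.S14
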