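-- Statement S20: dim S₂(Γ₀(N)) = genus formula.
import Fermat.Statements.S20
import Fermat.Agent.S20.Assembly1
import Fermat.Agent.S20.Emat
import Fermat.Agent.S20.Growth
import Fermat.Agent.S20.FreeBasis
import Fermat.Agent.S20.LevelOne
import Fermat.Agent.S20.Div
import Fermat.Agent.S20.Rinf
import Fermat.Agent.S20.Sep
import Fermat.Agent.S20.Rank
import Fermat.Agent.S20.NonVanishing
import Fermat.Agent.S20.Serre
import Fermat.Agent.S20.DualA
import Fermat.Agent.S20.DualBC
import Fermat.Agent.S20.Elliptic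
import Fermat.Agent.S20.Numerics
import Fermat.Agent.S20.CombBridge
import Fermat.Agent.S20.CombFix
import Fermat.Agent.S20.Exist

set_option autoImplicit false
open CuspForm

namespace Fermat.Agent.S20

open scoped MatrixGroups in
theorem neg_one_mem_Gamma0_asm (N : ℕ) : (-1 : SL(2, ℤ)) ∈ CongruenceSubgroup.Gamma0 N := by
  rw [CongruenceSubgroup.Gamma0_mem]
  simp

open scoped MatrixGroups in
theorem finrank_Sf_Gamma0 (N : ℕ) [NeZero N] :
    (Module.finrank ℂ (Sf (CongruenceSubgroup.Gamma0 N) 2) : ℚ) = ModularCurve.genusFormula N := by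
  classical
  let _ : Fintype (SL(2, ℤ) ⧸ CongruenceSubgroup.Gamma0 N) := Fintype.ofFinite _
  obtain ⟨w, g, hg, hstab⟩ := exists_form_stabilizer N
  obtain ⟨k, F, hFB, hev, hdet, hinf, hK⟩ := exists_frame
    (exists_freeBasis levelOne_gen (coprime tendsto_E4)) (freeBasis_even odd_weight) exists_Emat
    (regular_of_rinf levelOne_monomial div_discriminant) exists_injective_tr rank
    (nonvanishing' serre levelOne_weight_two) growth_weight growth_inverse
    (CongruenceSubgroup.Gamma0 N) (neg_one_mem_Gamma0_asm N) w g hg hstab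
  obtain ⟨h0, hone⟩ := freeBasis_weight_zero (CongruenceSubgroup.Gamma0 N) _ k F hFB
  have h12 := dual_weight_lt dual_isCF cusp_nonpos (CongruenceSubgroup.Gamma0 N) k F hFB.isMF
    hdet hinf
  have h10 : ∀ j, k j ≤ 10 := by
    intro j
    obtain ⟨r, hr⟩ := hev j
    have := h12 j
    omega
  have hfin := dual_finrank dual_isCF levelOne_cusp_lt levelOne_cusp_twelve
    (CongruenceSubgroup.Gamma0 N) k F hFB.isMF hdet hinf h10
  have hS := Elliptic.trace_S (CongruenceSubgroup.Gamma0 N) k F (fun j => (hFB.isMF j).inv)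
    (hdet _)
  have hST := Elliptic.trace_ST (CongruenceSubgroup.Gamma0 N) k F (fun j => (hFB.isMF j).inv)
    (hdet _)
  rw [card_fixedBy_S] at hS
  rw [card_fixedBy_ST] at hST
  have horb : Nat.card (MulAction.orbitRel.Quotient (Subgroup.zpowers
      (sigT (CongruenceSubgroup.Gamma0 N))) (SL(2, ℤ) ⧸ CongruenceSubgroup.Gamma0 N))
      = ModularCurve.cuspCount N := by
    rw [← comb_orbits_T N]
    exact comb_bridge SL(2, ℤ) (SL(2, ℤ) ⧸ CongruenceSubgroup.Gamma0 N) ModularGroup.T
  rw [horb] at hK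
  have hcard : Fintype.card (SL(2, ℤ) ⧸ CongruenceSubgroup.Gamma0 N)
      = ModularCurve.dedekindPsi N := by
    rw [← comb_index N, Subgroup.index, Nat.card_eq_fintype_card]
  have := genus_numerics k h0 h10 hev hone _ _ _ hS hST hK
  rw [hfin, this, hcard, ModularCurve.genusFormula]

theorem result (N : ℕ) [NeZero N] :
    (Module.finrank ℂ (CuspForm (CongruenceSubgroup.Gamma0 N) 2) : ℚ) = ModularCurve.genusFormula N := by
  rw [← finrank_Sf_Gamma0 N, (cuspFormEquiv (CongruenceSubgroup.Gamma0 N) 2).finrank_eq]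

end Fermat.Agent.S20
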