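import Fermat.Statements.S19
import Fermat.Agent.FF19.Geo.Main
import Fermat.Agent.FF19.Geo.Data
import Fermat.Agent.FF19.Geo.GenLat
import Fermat.Agent.FF19.Geo.GeoLaw
import Fermat.Agent.FF19.Geo.Hyp
import Fermat.Agent.FF19.Geo.Reg
import Fermat.Agent.FF19.Geo.SpFun
import Fermat.Agent.FF19.G0.All
import Fermat.Agent.FF19.Kap.All
import Fermat.Agent.FF19.NSA.All
import Fermat.Agent.FF19.Law.All
import Fermat.Agent.FF19.A.All
import Fermat.Agent.FF19.A.AllCF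
import Fermat.Agent.FF19.Conc.Main
import Fermat.Agent.FF19.Top.Main
import Fermat.Agent.FF19.Top.DescT
import Fermat.Agent.FF19.Top.DL
import Fermat.Agent.FF19.Top.Coord
import Fermat.Agent.FF19.Top.FinOpen
import Fermat.Agent.FF19.Q.All
import Fermat.Agent.FF19.Hopf.All

set_option autoImplicit false
set_option synthInstance.maxHeartbeats 400000
open ModularCurve
open ModularCurve

namespace Fermat.Agent.S19

open Fermat.Agent.FF19

/-- the contract of block CONC. -/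
theorem conc (M l : ℕ) (hl : l.Prime) (hlM : ¬ l ∣ M) (hM : 4 ∣ M ∨ 9 ∣ M) : Geo.Stmt_Conc M l := by
  intro A hA
  have hM0 : M ≠ 0 := by
    rintro rfl
    exact hlM (dvd_zero l)
  have : NeZero M := ⟨hM0⟩
  obtain ⟨r, hr, hrM⟩ : ∃ r : ℕ, (r = 2 ∨ r = 3) ∧ r ∣ M := by
    rcases hM with h | h
    · exact ⟨2, Or.inl rfl, dvd_trans (by norm_num) h⟩
    · exact ⟨3, Or.inr rfl, dvd_trans (by norm_num) h⟩
  obtain ⟨L, D, t, hP⟩ := Conc.exists_pack r M l hl hr hrM hlM A hA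
  refine ⟨_, _, inferInstance, S18G.isAlgClosed_kA A, inferInstance, inferInstance, D, t, ?_⟩
  exact
    { hA := hP.gauss.gauss.hA
      model := hP.model
      arch := by
        rw [hP.gauss.gauss.hA]
        exact Law.all_ArchQ _ A l hl hA
      t_gal := fun σ hσ => (Conc.pack_triv hP σ hσ).fix
      O_gal := fun σ hσ => (Conc.pack_triv hP σ hσ).mem
      rd_gal := fun σ hσ => (Conc.pack_triv hP σ hσ).rd
      lift := fun x => Conc.pack_lift G0.all_Simple G0.all_SpAut G0.all_RegBB hP hl hA x }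

theorem geo (M l : ℕ) (hl : l.Prime) (hlM : ¬ l ∣ M) (hM : 4 ∣ M ∨ 9 ∣ M) : Top.Stmt_Geo M l := by
  have hGen : Geo.Stmt_Gen := Geo.stmt_Gen Kap.all_FibDiv Kap.all_RRS
  have hLat : Geo.Stmt_Lat := Geo.stmt_Lat hGen G0.all_LBasis
  have hReg : Geo.Stmt_Reg := Geo.stmt_Reg G0.all_SpIff
  have hData : Geo.Stmt_Data :=
    Geo.stmt_Data hReg hGen hLat Kap.all_NSOut NSA.all_UB Kap.all_Basic A.all_CurveFacts
  have hSp : Geo.Stmt_SpFun := Geo.stmt_SpFun G0.all_SpEx G0.all_SpUniq G0.all_Ord G0.all_SpSurj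
  have hGL : Geo.Stmt_GeoLaw := Geo.stmt_GeoLaw Law.all_Facts Law.all_Law Law.all_DivA
  have hHyp : Geo.Stmt_Hyp := Geo.stmt_Hyp hGL Geo.stmt_Swap Law.all_CoEx
  exact Geo.stmt_Main hSp hData hHyp G0.all_SpAut M l (conc M l hl hlM hM)

theorem result
    (p : ℕ) [NeZero p] (ℓ : ℕ) [Fact ℓ.Prime] (hℓp : ¬ ℓ ∣ p) (k : ℕ) :
    ∃ (H : Type) (_ : CommRing H) (_ : HopfAlgebra (GaloisRep.ratLocalizedAt ℓ) H),
      Module.Finite (GaloisRep.ratLocalizedAt ℓ) H ∧ Module.Flat (GaloisRep.ratLocalizedAt ℓ) H ∧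
      Coalgebra.IsCocomm (GaloisRep.ratLocalizedAt ℓ) H ∧
      ∃ e : WithConv (H →ₐ[GaloisRep.ratLocalizedAt ℓ] AlgebraicClosure ℚ) ≃
          ↥(Submodule.torsionBy ℤ (JZero p) ((ℓ : ℤ) ^ k)),
        (∀ f g, e (f * g) = e f + e g) ∧
        ∀ (σ : AlgebraicClosure ℚ ≃ₐ[ℚ] AlgebraicClosure ℚ)
          (f g : WithConv (H →ₐ[GaloisRep.ratLocalizedAt ℓ] AlgebraicClosure ℚ)),
          (∀ h : H, g h = σ (f h)) → ((e g : JZero p)) = σ • (e f : JZero p) :=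
  Top.stmt_Top Hopf.all_Criterion Hopf.all_Sub Top.stmt_DescT Top.stmt_DL
    (Top.stmt_Coord Top.stmt_DL) Top.stmt_Fin Top.stmt_Open Q.all_Q Top.stmt_ExA geo p ℓ hℓp k

end Fermat.Agent.S19
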