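import Fermat.Statements.S24
import Fermat.Agent.S24.Comb
import Fermat.Agent.S24.Differential
import Fermat.Agent.S24.MerGerm
import Fermat.Agent.S24.DegreeBound
import Fermat.Agent.S24.UnifFinite
import Fermat.Agent.S24.UnifInfty
import Fermat.Agent.S24.RiemannHurwitz

set_option autoImplicit false
open ModularCurve

namespace Fermat.Agent.S24

theorem jF_ne_zero (N : ℕ) : jF N ≠ 0 := by
  intro h
  have h1 : jBarSeries 1 = 0 := congrArg Subtype.val h
  have h2 := congrArg (fun x : LaurentSeries Qbar => x.coeff (-1)) h1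
  simp only [jBarSeries, qExpand_one_apply, coeffEmb_coeff, coeff_jq_neg_one, map_one,
    HahnSeries.coeff_zero] at h2
  exact one_ne_zero h2

theorem result (N : ℕ) [NeZero N]
    [AlgebraicCurve.HasCanonicalDivisor (K := AlgebraicClosure ℚ) (F := ↥(ModularCurve.modularFunctionFieldBar N))] :
    (AlgebraicCurve.genus (AlgebraicClosure ℚ) ↥(ModularCurve.modularFunctionFieldBar N) : ℚ)
      = ModularCurve.genusFormula N := by
  classical
  open AlgebraicCurve KaehlerDifferential IntermediateField ModularGroup MatrixGroups in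
  obtain ⟨hfd, hn⟩ := finrank_FF_le N
  obtain ⟨Uinf⟩ := localUnif_infty N
  have U := localUnif_finite N
  have hw := MerGerm.isDiffVal
  letI := Fintype.ofFinite (Cosets N)
  have hex : ∃ ω : Ω[FF N⁄Qbar], ω ≠ 0 :=
    exists_differential_ne_zero MerGerm.ord MerGerm.deriv hw (jF N) (jF_ne_zero N) (Cosets N) _ Uinf
  have hne : (0 : Qbar) ≠ 1728 := by norm_num
  have hdeg := degree_eq_of_localUnif MerGerm.ord MerGerm.deriv hw (jF N) (Cosets N)
    (by rwa [Nat.card_eq_fintype_card] at hn) (permAt N) _ (fun c => (U c).some) Uinf {0, 1728}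
    (by
      intro c hc
      simp only [Finset.mem_insert, Finset.mem_singleton, not_or] at hc
      simp [permAt, hc.1, hc.2])
    hex.choose hex.choose_spec (canonicalDivisorOf hex.choose_spec)
    (canonicalDivisorOf_apply _)
  rw [Finset.sum_pair hne] at hdeg
  have hp0 : permAt N 0 = MulAction.toPerm (S * T : SL(2, ℤ)) := by simp [permAt]
  have hp1 : permAt N 1728 = MulAction.toPerm (S : SL(2, ℤ)) := by
    simp [permAt, hne.symm]
  rw [hp0, hp1, numOrbits_T, ← Nat.card_eq_fintype_card, card_cosets] at hdeg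
  unfold AlgebraicCurve.genus
  rw [dif_pos hex, genusFormula]
  exact arith_final _ _ _ _ _ _ _ hdeg (two_mul_numOrbits_S N) (three_mul_numOrbits_ST N)
    (scott_cosets N).1 (scott_cosets N).2

end Fermat.Agent.S24
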