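import Fermat.Statements.S44
import Fermat.Agent.MR.Skel.All
import Fermat.Agent.MR.Node.RESAll

set_option autoImplicit false
open WeierstrassCurve WeierstrassCurve.Affine WeierstrassCurve.Affine.Point
open CuspForm ModularFormClass UpperHalfPlane
open FreyPackage

namespace Fermat.Agent.S44

theorem result (P : FreyPackage) {N : ℕ} (hcond : P.IsConductorLevel N) (hpN : P.p ∣ N) (hirr : GaloisRepIsIrreducible (K := AlgebraicClosure ℚ) ℚ P.freyCurve P.p) (hmod : P.ModularRepOfLevel N) : ∃ M : ℕ, M ∣ N ∧ ¬ P.p ∣ M ∧ P.ModularRepOfLevel M :=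
  Fermat.Agent.MR.S44_of_core
    (Fermat.Agent.MR.Skel.All.core_of_RES Fermat.Agent.MR.Node.RESAll_RES) P hcond hpN hirr hmod

end Fermat.Agent.S44
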