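import Fermat.Statements.S49
import Fermat.Agent.S49.Formal
import Fermat.Agent.S49.Lift
import Fermat.Agent.S49.Maximal

set_option autoImplicit false
open CuspForm EisensteinWeightOne CongruenceSubgroup ModularFormClass
open FLT FLT.AbstractIntegralStructure

namespace Fermat.Agent.S49

theorem result
    {N : ℕ} [NeZero N] (h : CuspForm.HasIntegralBasis N) {a : ℕ → ℤ}
    (heig : FormalHecke.IsEigensystem
      (fun ℓ => if ℓ ∣ N then 0 else ((chiNegThree ℓ : ℤ) : ℤ)) a)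
    (hreal : CuspForm.IsLatticeRealized N a) :
    ∃ (f : CuspForm (Gamma0 N) 2) (_ : f.IsNormalizedEigenform)
      (𝔪' : Ideal (integralClosure ℤ ℂ)), 𝔪'.IsMaximal ∧
      ((3 : ℕ) : integralClosure ℤ ℂ) ∈ 𝔪' ∧
      ∀ (ℓ : ℕ) (_ : ℓ.Prime) (_ : ¬ ℓ ∣ N),
        ∃ c : integralClosure ℤ ℂ, (c : ℂ) = ModularFormClass.qCoeff f ℓ ∧
          c - (a ℓ : integralClosure ℤ ℂ) ∈ 𝔪' := by
  obtain ⟨f₀, -, af, haf, hbr⟩ := hreal
  have hcong : ∀ n, (3 : ℤ) ∣ af n - a n := fun n => by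
    have := dvd_add (hbr n) (bridgeProduct_coeff_congr a n)
    simpa using this
  have hmax := congrIdeal_isMaximal heig haf hcong
  have hspan : Submodule.span ℂ
      ((CuspForm.intLattice N 2 : Submodule ℤ _) : Set (CuspForm (Gamma0 N) 2)) = ⊤ := by
    rw [← qIntegralSet_eq]; exact h
  obtain ⟨χ, g, 𝔪', hg0, hχ, hmax', hcomap⟩ := exists_lift_character (CuspForm.intLattice N 2)
    (CuspForm.intLattice_fg N 2) hspan
    ((CuspForm.heckeAlgebra N 2 ∅).val.toRingHom) Subtype.val_injective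
    (fun r v hv => CuspForm.mem_intLattice_of_mem_heckeAlgebra (by norm_num) r.2 hv)
    (congrIdeal f₀)
  -- the eigenvalues
  let c : ℕ → ℂ := fun ℓ => if hℓ : ℓ.Prime then
    (if hℓN : ℓ ∣ N then (χ (heckeAlgebra.U hℓ hℓN (Set.notMem_empty ℓ)) : ℂ)
      else (χ (heckeAlgebra.T hℓ hℓN (Set.notMem_empty ℓ)) : ℂ)) else 0
  let e : ℕ → ℂ := fun ℓ => if ℓ ∣ N then 0 else (ℓ : ℂ)
  have hrel : ∀ ℓ : ℕ, ℓ.Prime → ∀ n : ℕ,
      qCoeff g (ℓ * n) + e ℓ * (if ℓ ∣ n then qCoeff g (n / ℓ) else 0) = c ℓ * qCoeff g n := by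
    intro ℓ hℓ n
    by_cases hℓN : ℓ ∣ N
    · have h1 : heckeULin 2 hℓN g = (χ (heckeAlgebra.U hℓ hℓN (Set.notMem_empty ℓ)) : ℂ) • g :=
        hχ (heckeAlgebra.U hℓ hℓN (Set.notMem_empty ℓ))
      have h2 := congrArg (fun F => qCoeffLin N n F) h1
      simp only [map_smul, qCoeffLin_apply, qCoeff_heckeULin hℓ, smul_eq_mul] at h2
      simp only [e, c, dif_pos hℓ, dif_pos hℓN, if_pos hℓN, zero_mul, add_zero]
      exact h2
    · have h1 : heckeTLin 2 hℓ hℓN g = (χ (heckeAlgebra.T hℓ hℓN (Set.notMem_empty ℓ)) : ℂ) • g :=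
        hχ (heckeAlgebra.T hℓ hℓN (Set.notMem_empty ℓ))
      have h2 := congrArg (fun F => qCoeffLin N n F) h1
      simp only [map_smul, qCoeffLin_apply, qCoeff_heckeTLin, smul_eq_mul] at h2
      simp only [e, c, dif_pos hℓ, dif_neg hℓN, if_neg hℓN]
      exact h2
  have hb1 : qCoeff g 1 ≠ 0 := by
    intro h1
    apply hg0
    apply eq_zero_of_qCoeff
    intro n
    by_cases hn : n = 0
    · rw [hn]; exact qCoeff_zero_eq g
    · exact eq_zero_of_isEigen_of_one_eq_zero (a := fun n => qCoeff g n) h1 hrel n hn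
  -- normalise
  obtain ⟨g', hg'def⟩ : ∃ g' : CuspForm (Gamma0 N) 2, g' = (qCoeff g 1)⁻¹ • g := ⟨_, rfl⟩
  have hg' : ∀ n, qCoeff g' n = (qCoeff g 1)⁻¹ * qCoeff g n := fun n => by
    rw [hg'def, ← qCoeffLin_apply n, map_smul, qCoeffLin_apply, smul_eq_mul]
  have hg'1 : qCoeff g' 1 = 1 := by rw [hg', inv_mul_cancel₀ hb1]
  have hrel' : ∀ ℓ : ℕ, ℓ.Prime → ∀ n : ℕ,
      qCoeff g' (ℓ * n) + e ℓ * (if ℓ ∣ n then qCoeff g' (n / ℓ) else 0) = c ℓ * qCoeff g' n := by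
    intro ℓ hℓ n
    have := hrel ℓ hℓ n
    simp only [hg']
    split_ifs at this ⊢
    · linear_combination (qCoeff g 1)⁻¹ * this
    · linear_combination (qCoeff g 1)⁻¹ * this
  have hc : ∀ ℓ : ℕ, ℓ.Prime → c ℓ = qCoeff g' ℓ := by
    intro ℓ hℓ
    have := hrel' ℓ hℓ 1
    rw [if_neg (fun hd => hℓ.one_lt.ne' (Nat.dvd_one.mp hd)), mul_zero, add_zero, mul_one, hg'1,
      mul_one] at this
    exact this.symm
  have hsys : FormalHecke.IsEigensystem e (fun n => qCoeff g' n) :=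
    ⟨hg'1, fun ℓ hℓ n => by rw [hrel' ℓ hℓ n, hc ℓ hℓ]⟩
  obtain ⟨r1, r2, r3⟩ := isRecursive_of_isEigensystem hsys
  refine ⟨g', ⟨r1, r2, ?_, ?_⟩, 𝔪', hmax', ?_, ?_⟩
  · intro p r hp hpN
    have := r3 p r hp
    simp only [e, if_neg hpN] at this
    exact this
  · intro p r hp hpN
    have := r3 p r hp
    simp only [e, if_pos hpN, zero_mul, sub_zero] at this
    exact this
  · have h3 : (3 : CuspForm.heckeAlgebra N 2 ∅) ∈ 𝔪'.comap χ := by
      rw [hcomap]; exact three_mem_congrIdeal haf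
    rw [Ideal.mem_comap, map_ofNat] at h3
    exact_mod_cast h3
  · intro ℓ hℓ hℓN
    refine ⟨χ (heckeAlgebra.T hℓ hℓN (Set.notMem_empty ℓ)), ?_, ?_⟩
    · rw [← hc ℓ hℓ]
      simp only [c, dif_pos hℓ, dif_neg hℓN]
    · have hm : (heckeAlgebra.T hℓ hℓN (Set.notMem_empty ℓ) : CuspForm.heckeAlgebra N 2 ∅)
          - ((a ℓ : ℤ) : CuspForm.heckeAlgebra N 2 ∅) ∈ 𝔪'.comap χ := by
        rw [hcomap]; exact T_sub_mem_congrIdeal heig haf hcong hℓ hℓN
      rw [Ideal.mem_comap, map_sub, map_intCast] at hm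
      exact hm

end Fermat.Agent.S49
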