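import Fermat.Statements.S51
import Fermat.Agent.S51.Assembly
import Fermat.Agent.S51.FieldAlg
import Fermat.Agent.S51.Descent45
import Fermat.Agent.S51.Endgame
import Fermat.Agent.S51.Three
import Fermat.Agent.S51.Five

set_option autoImplicit false
open WeierstrassCurve WeierstrassCurve.Affine WeierstrassCurve.Affine.Point
open CuspForm ModularFormClass UpperHalfPlane
open WeierstrassCurve

namespace Fermat.Agent.S51

theorem endgameStatement : Asm.EndgameStatement := by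
  intro c4 Δ hΔ hss D r q Z h1 h2 h3 h4
  exact endgame_of_thmA (fun Z Y h => Descent45.moduleA Y Z h) c4 Δ hΔ hss D r q Z h1 h2 h3 h4

theorem moduleBStatement (K : Type*) [Field K] [CharZero K] : Asm.ModuleBStatement K := by
  intro b2 b4 b6 b8 c4 Δ x0 x1 x2 hb8 hc4 hΔ h0 H1 H2 hne hf1 hf2 d t r p ζ Z q D hd ht hr hp hζ hZ
    hq hD
  obtain ⟨hprod, e1, e2, e3, e4⟩ := moduleB b2 b4 b6 b8 x0 x1 x2 hb8 h0 H1 H2 hne hf1
  have hd0 : d ≠ 0 := by rw [hd]; exact sub_ne_zero.mpr hne.symm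
  have hDB : DB x1 x2 = D := by rw [hD, hd]; rfl
  have hZB : ZB x0 x1 x2 = Z := by rw [hZ, hζ, hd]; rfl
  unfold fB at hprod
  rw [← hd] at hprod
  have hrB : rB b2 b4 b6 x1 x2 = r := by
    rw [hr, ht]
    unfold rB fB
    rw [← hd]
    generalize 4 * x1 ^ 3 + b2 * x1 ^ 2 + 2 * b4 * x1 + b6 = F1 at hprod hf1 ⊢
    generalize 4 * x2 ^ 3 + b2 * x2 ^ 2 + 2 * b4 * x2 + b6 = F2 at hprod hf2 ⊢
    field_simp
    linear_combination F1 * hprod
  have hqB : qB b2 b4 b6 x0 x1 x2 = q := by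
    rw [hq, hζ, hp, ht]
    unfold qB fB
    rw [← hd]
    generalize 4 * x1 ^ 3 + b2 * x1 ^ 2 + 2 * b4 * x1 + b6 = F1 at hprod hf1 ⊢
    generalize 4 * x2 ^ 3 + b2 * x2 ^ 2 + 2 * b4 * x2 + b6 = F2 at hprod hf2 ⊢
    field_simp
    linear_combination (-F1 * (2 * x0 - x1 - x2)) * hprod
  rw [hDB, hrB] at e1 e2
  rw [hZB, hrB, hqB] at e3 e4
  exact ⟨hprod, hc4.trans e1, hΔ.trans e2, e3, e4⟩

theorem threeTorsionFacts {K : Type*} [Field K] [DecidableEq K] [IsAlgClosed K] [CharZero K]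
    (V : Affine K) (hΔ : V.Δ ≠ 0) : Asm.ThreeTorsionFacts V where
  exists_ne := T5.exists_three_torsion (W := V) hΔ
  card_le := T5.card_three_torsion_le (W := V) hΔ
  psi3 := fun x y h h3 => (T5.three_nsmul_some_eq_zero_iff (W := V) hΔ h).mp h3

theorem fiveTorsionFacts {K : Type*} [Field K] [DecidableEq K] [IsAlgClosed K] [CharZero K]
    (V : Affine K) (hΔ : V.Δ ≠ 0) : Asm.FiveTorsionFacts V where
  exists_ne := exists_five_torsion V hΔ
  card_le := card_five_torsion_le V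
  data := fun _ hP h5 => five_torsion_data V hP h5

theorem result (W : WeierstrassCurve ℤ) (hΔ : W.Δ ≠ 0) (hW : W.IsSemistableModel) : W.ModRepIsIrreducible 3 ∨ W.ModRepIsIrreducible 5 := by
  have hV : ((W.map (Int.castRingHom ℚ) : Affine ℚ)⁄(AlgebraicClosure ℚ)).Δ ≠ 0 := by
    simp [WeierstrassCurve.baseChange, hΔ]
  exact Asm.main (moduleBStatement _) endgameStatement W hΔ hW (threeTorsionFacts _ hV)
    (fiveTorsionFacts _ hV)

end Fermat.Agent.S51
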