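-- Statement S53 (universal deformation ring).  Team S53: rigidified (Schlessinger-free) construction.
import Fermat.Statements.S53
import Fermat.Agent.S53.FrameExists
import Fermat.Agent.S53.Dict
import Fermat.Agent.S53.Residual
import Fermat.Agent.S53.Normal
import Fermat.Agent.S53.Assembly1
import Fermat.Agent.S53.OfType
import Fermat.Agent.S53.NormalizeA
import Fermat.Agent.S53.UnivComplete
import Fermat.Agent.S53.UnivDataExists

set_option autoImplicit false
set_option autoImplicit false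
open GaloisRep

namespace Fermat.Agent.S53

open IsLocalRing

variable {𝒪 : Type} [CommRing 𝒪] [IsDomain 𝒪] [IsDiscreteValuationRing 𝒪]
    [IsAdicComplete (IsLocalRing.maximalIdeal 𝒪) 𝒪] [Finite (IsLocalRing.ResidueField 𝒪)]
    {ρbar : ResidualGaloisRep (IsLocalRing.ResidueField 𝒪)}
    {𝒟 : ∀ ⦃A : Type⦄ [CommRing A] [IsLocalRing A] [Algebra 𝒪 A], GaloisRepAdic A → Prop}

theorem final_isEquiv_symm {A : Type} [CommRing A] [IsLocalRing A] {ρ₁ ρ₂ : GaloisRepAdic A}
    (h : ρ₁.IsEquiv ρ₂) : ρ₂.IsEquiv ρ₁ := h.elim fun e => ⟨e.symm⟩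

theorem final_isEquiv_trans {A : Type} [CommRing A] [IsLocalRing A] {ρ₁ ρ₂ ρ₃ : GaloisRepAdic A}
    (h : ρ₁.IsEquiv ρ₂) (h' : ρ₂.IsEquiv ρ₃) : ρ₁.IsEquiv ρ₃ :=
  h.elim fun e => h'.elim fun e' => ⟨e.trans e'⟩

theorem final_ofMat_congr {A : Type} [CommRing A] [IsLocalRing A] {r r' : GQ →* M2 A}
    (h : r = r') (hr : MatCont r) (hr' : MatCont r') : (ofMat r hr).IsEquiv (ofMat r' hr') := by
  subst h
  exact ⟨GaloisRepAdic.Equiv.refl _⟩

/-- E9: from `UnivData` to `DeformationRingData`. -/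
theorem nonempty_deformationRingData_of_univData (F : Frame 𝒪 ρbar)
    (habs : ρbar.IsAbsolutelyIrreducible) (h𝒟 : GaloisRep.IsDeformationCondition 𝒪 𝒟)
    (D : UnivData F 𝒟) : Nonempty (GaloisRep.DeformationRingData 𝒪 ρbar 𝒟) := by
  refine ⟨{ R := D.R
            residue_surjective := D.residue_surjective
            absIrr := habs
            ρ := ofMat D.r D.cont
            isOfType := D.isOfType F h𝒟
            residual_isEquiv := residual_isEquiv_of_isLift F
              (IsLocalRing.ResidueField.map (algebraMap 𝒪 D.R)) (fun c => rfl) D.cont D.lift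
            universal := ?_ }⟩
  intro A _ _ _ _ _ _ hres ρA hρ hbarA
  obtain ⟨s, hs, hsl, hsn, hse, hsB⟩ := exists_normalized_rep F h𝒟 hres ρA hρ hbarA
  obtain ⟨φ, hφ, huniq⟩ := D.existsUnique_hom F hres s hsB
  have hconst := asm_const_of_residue_surjective hres
  have hlocA : IsLocalHom (algebraMap 𝒪 A) := inferInstance
  refine ⟨φ, ⟨asm_isLocalHom hlocA hconst φ, ?_⟩, ?_⟩
  · refine final_isEquiv_trans (baseChangeAlong_ofMat_isEquiv (φ : D.R →+* A) _ D.cont) ?_
    exact final_isEquiv_trans (final_ofMat_congr hφ _ hs) (final_isEquiv_symm hse)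
  · rintro φ' ⟨hφ', he⟩
    apply huniq
    have h1 : (ofMat (mapMat (φ' : D.R →+* A) D.r) (matCont_mapMat _ hφ' D.cont)).IsEquiv
        (ofMat s hs) :=
      final_isEquiv_trans (final_isEquiv_symm (baseChangeAlong_ofMat_isEquiv _ hφ' D.cont))
        (final_isEquiv_trans he hse)
    obtain ⟨P, hP, hPr⟩ := (ofMat_isEquiv_iff _ _).mp h1
    exact normalized_unique hlocA F (isLift_mapMat φ' hφ' F D.lift)
      (isNormalized_mapMat φ' F D.norm) hsl hsn P hP hPr

end Fermat.Agent.S53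

namespace Fermat.Agent.S53

theorem result
    (𝒪 : Type) [CommRing 𝒪] [IsDomain 𝒪] [IsDiscreteValuationRing 𝒪]
    [IsAdicComplete (IsLocalRing.maximalIdeal 𝒪) 𝒪] [Finite (IsLocalRing.ResidueField 𝒪)]
    (ρbar : ResidualGaloisRep (IsLocalRing.ResidueField 𝒪))
    (𝒟 : ∀ ⦃A : Type⦄ [CommRing A] [IsLocalRing A] [Algebra 𝒪 A], GaloisRepAdic A → Prop)
    (habs : ρbar.IsAbsolutelyIrreducible)
    (h𝒟 : GaloisRep.IsDeformationCondition 𝒪 𝒟)
    (hbar : 𝒟 (GaloisRepAdic.ofResidualGaloisRep ρbar))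
    (hfin : GaloisRep.TangentFinite 𝒪 ρbar 𝒟) :
    Nonempty (GaloisRep.DeformationRingData 𝒪 ρbar 𝒟) := by
  obtain ⟨F⟩ := exists_frame ρbar habs
  obtain ⟨D⟩ := nonempty_univData F h𝒟 hbar hfin
  exact nonempty_deformationRingData_of_univData F habs h𝒟 D

end Fermat.Agent.S53
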