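-- Statement S57: patching, descent step.
import Fermat.Statements.S57
import Fermat.Agent.S57.Main

set_option autoImplicit false
open Algebra Algebra.PatchingLevel

namespace Fermat.Agent.S57

theorem repr_mem_of_mem_smul_top {A N ι : Type} [CommRing A] [AddCommGroup N] [Module A N]
    (β : Module.Basis ι A N) (I : Ideal A) (y : N) (hy : y ∈ I • (⊤ : Submodule A N)) (j : ι) :
    β.repr y j ∈ I := by
  induction hy using Submodule.smul_induction_on' with
  | smul a ha x _ =>
    rw [map_smul, Finsupp.smul_apply, smul_eq_mul]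
    exact I.mul_mem_right _ ha
  | add x _ y _ hx hy =>
    rw [map_add, Finsupp.add_apply]
    exact I.add_mem hx hy

theorem result
    {𝒪 : Type} [CommRing 𝒪] [IsDomain 𝒪] [IsDiscreteValuationRing 𝒪]
    {r : ℕ} {R : Type} [CommRing R] [Algebra 𝒪 R]
    {M : Type} [AddCommGroup M] [Module R M] [Nontrivial M]
    (L : Algebra.PatchingLevel 𝒪 r R M ⊥) :
    Module.Free R M ∧ Module.annihilator R M = ⊥ ∧
      RingHom.ker L.ψ = Ideal.span (Set.range fun i : Fin r => L.φ (MvPowerSeries.X i)) := by
  have hfree := free_N L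
  have hfin := finite_N L
  set I := Ideal.span (Set.range fun i : Fin r => L.φ (MvPowerSeries.X i)) with hI
  let β := Module.Free.chooseBasis (MvPowerSeries (Fin r) 𝒪) L.N
  have hIψ : ∀ f ∈ I, L.ψ f = 0 := by
    intro f hf
    have : I ≤ RingHom.ker L.ψ := by
      rw [hI, Ideal.span_le]
      rintro _ ⟨i, rfl⟩
      exact L.ψ_φ_X i
    exact this hf
  have hπsum : ∀ c : Module.Free.ChooseBasisIndex (MvPowerSeries (Fin r) 𝒪) L.N →
      MvPowerSeries (Fin r) 𝒪, L.π (∑ j, c j • β j) = ∑ j, L.ψ (c j) • L.π (β j) := by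
    intro c
    rw [map_sum]
    exact Finset.sum_congr rfl fun j _ => L.π_smul _ _
  -- linear independence
  have hli : LinearIndependent R (fun j => L.π (β j)) := by
    rw [Fintype.linearIndependent_iff]
    intro g hg j
    choose c hc using fun j => L.ψ_surjective (g j)
    have h1 : L.π (∑ j, c j • β j) = 0 := by
      rw [hπsum, ← hg]
      exact Finset.sum_congr rfl fun j _ => by rw [hc]
    have h2 := (L.ker_π _).mp h1
    have h3 := repr_mem_of_mem_smul_top β I _ h2 j
    rw [β.repr_sum_self] at h3
    rw [← hc j]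
    exact hIψ _ h3
  have hsp : ⊤ ≤ Submodule.span R (Set.range fun j => L.π (β j)) := by
    intro m _
    obtain ⟨x, rfl⟩ := L.π_surjective m
    rw [← β.sum_repr x, hπsum]
    exact Submodule.sum_mem _ fun j _ =>
      Submodule.smul_mem _ _ (Submodule.subset_span ⟨j, rfl⟩)
  have hfreeM : Module.Free R M := Module.Free.of_basis (Module.Basis.mk hli hsp)
  refine ⟨hfreeM, ?_, ?_⟩
  · exact Module.annihilator_eq_bot.mpr inferInstance
  · apply le_antisymm
    · intro f hf
      have hN : Nontrivial L.N := L.π_surjective.nontrivial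
      obtain ⟨j⟩ : Nonempty (Module.Free.ChooseBasisIndex (MvPowerSeries (Fin r) 𝒪) L.N) :=
        β.index_nonempty
      have h1 : L.π (f • β j) = 0 := by
        rw [L.π_smul, RingHom.mem_ker.mp hf, zero_smul]
      have h2 := (L.ker_π _).mp h1
      have h3 := repr_mem_of_mem_smul_top β I _ h2 j
      simpa using h3
    · intro f hf
      exact hIψ f hf

end Fermat.Agent.S57
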